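import Fermat.Agent.LT.General.Interface
import Fermat.Agent.LT.Galois.Quaternion
import Fermat.Agent.TW.Places
import Fermat.Agent.GalRep.Construct.Cyclotomic
import Fermat.Agent.GalRep.Density.Frobenius

/-!
# Frobenius elements of a general setup
-/

set_option autoImplicit false

noncomputable section

open Matrix
open FermatAgent.LT (quaternionSubgroup q8Trace quaternionSubgroup_conj)

namespace FermatAgent.LTG.Setup

local notation "Qb" => AlgebraicClosure ℚ
local notation "GQ" => AlgebraicClosure ℚ ≃ₐ[ℚ] AlgebraicClosure ℚ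
local notation "M₂" => Matrix (Fin 2) (Fin 2)

variable (S : Setup)

/-- The determinant of a Frobenius element. -/
theorem det_frobenius {p : ℕ} (hp : p.Prime) (hp3 : p ≠ 3) {A : ValuationSubring Qb}
    (hA : A.LiesOverPrime p) {τ : GQ} (hτ : A.IsFrobeniusAt τ p) :
    ((S.ρ τ : GL (Fin 2) (ZMod 3)) : M₂ (ZMod 3)).det = (p : ZMod 3) := by
  have : Fact (Nat.Prime 3) := ⟨Nat.prime_three⟩
  rw [show ((S.ρ τ : GL (Fin 2) (ZMod 3)) : M₂ (ZMod 3)).det =
    ((Matrix.GeneralLinearGroup.det (S.ρ τ) : (ZMod 3)ˣ) : ZMod 3) from rfl, S.det_eq,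
    WeierstrassCurve.modThreeCyclotomicChar_apply]
  symm
  refine modularCyclotomicCharacter.unique _ _ _ fun t ht => ?_
  have ht' : ((t : Qb)) ^ (3 ^ 1) = 1 := by
    rw [pow_one, ← Units.val_pow_eq_pow_val, (mem_rootsOfUnity _ _).mp ht, Units.val_one]
  have h := GalRep.cycChar_spec 3 τ 1 ht'
  rw [GalRep.cycChar_frobenius 3 hp hp3 hA hτ, map_natCast] at h
  simpa using h

theorem splitsInF_of_frobenius {p : ℕ} (hp : p.Prime) (hpm : ¬ p ∣ S.m)
    {A : ValuationSubring Qb} (hA : A.LiesOverPrime p) {τ : GQ} (hτ : A.IsFrobeniusAt τ p)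
    (h : S.ρ τ ∈ quaternionSubgroup) : S.SplitsInF p := by
  intro B hB σ hσ
  obtain ⟨g, hg⟩ := TW.exists_conj_map_frobenius S.ρ hp (S.unramified p hp hpm) hA hB hτ hσ
  rw [hg]
  exact quaternionSubgroup_conj h

theorem three_dvd_bad : 3 ∣ S.m := (by norm_num : 3 ∣ 6).trans S.six_dvd

theorem exists_frobenius {p : ℕ} (hp : p.Prime) :
    ∃ (A : ValuationSubring Qb) (τ : GQ), A.LiesOverPrime p ∧ A.IsFrobeniusAt τ p := by
  obtain ⟨A, hA⟩ := FermatAgent.RT.exists_liesOverPrime hp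
  obtain ⟨τ, hτ⟩ := FermatAgent.RT.exists_isFrobeniusAt hp hA
  exact ⟨A, τ, hA, hτ⟩

/-- A split prime is congruent to one modulo three. -/
theorem mod_three_of_splitsInF {p : ℕ} (hp : p.Prime) (hpm : ¬ p ∣ S.m) (h : S.SplitsInF p) :
    p % 3 = 1 := by
  obtain ⟨A, τ, hA, hτ⟩ := exists_frobenius hp
  have h3 : p ≠ 3 := fun e => hpm (e ▸ S.three_dvd_bad)
  have hd := S.det_frobenius hp h3 hA hτ
  rw [(h A hA τ hτ).1] at hd
  have := congrArg ZMod.val hd.symm
  rwa [ZMod.val_natCast] at this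

end FermatAgent.LTG.Setup

end
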