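import Fermat.Agent.LT.Galois.HexTheta
import Fermat.Agent.ModCurve.Forms.Basic
import Fermat.Agent.ModCurve.Forms.IntegralForms
import Fermat.Agent.DSLift.QExp
import Fermat.Prelude.Sol.S_ModularForm_heckeT_slash_eq_self_of_mem_Gamma0
import Fermat.Prelude.Thm_UpperHalfPlane_eq_of_forall_qCoeff_eq
import Fermat.Prelude.Thm_UpperHalfPlane_qCoeff_heckeT
import Fermat.Prelude.Thm_UpperHalfPlane_qCoeff_heckeU
import Fermat.Prelude.Thm_ModularForm_periodic_heckeU_comp_ofComplex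
import Fermat.Prelude.Thm_ModularForm_periodic_heckeT_comp_ofComplex
import Fermat.Prelude.Thm_ModularForm_isBoundedAtImInfty_heckeU
import Fermat.Prelude.Thm_ModularForm_isBoundedAtImInfty_heckeT

/-!
# Weight one cusp forms of character `χ₋₃` as functions: `T_q`, `U_p` and `V_p`

Everything is stated for plain functions; the coefficient formulas are those of the `q`-expansion
of period one.
-/

set_option autoImplicit false

noncomputable section

open UpperHalfPlane CongruenceSubgroup Filter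
open ModularFormClass (qCoeff)
open scoped MatrixGroups ModularForm Manifold
open FermatAgent.LT (chiThree chiThree_congr chiThree_mul)
open FermatAgent.ModCurve.Forms (IsCF IsMF)

namespace FermatAgent.LTG.Galois

/-- A cusp form of weight one on `Γ₁(M)` with character `χ₋₃`. -/
structure IsChiForm (M : ℕ) (f : ℍ → ℂ) : Prop where
  cusp : IsCF (Gamma1 M) 1 f
  char : ∀ γ : SL(2, ℤ), γ ∈ Gamma0 M → f ∣[(1 : ℤ)] γ = (chiThree (γ 1 1) : ℂ) • f

theorem gamma1_le_gamma0 (M : ℕ) {γ : SL(2, ℤ)} (h : γ ∈ Gamma1 M) : γ ∈ Gamma0 M :=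
  Gamma0_mem.mpr ((Gamma1_mem M γ).mp h).2.2

theorem chiThree_eq_one_of_gamma1 {M : ℕ} (h3 : 3 ∣ M) {γ : SL(2, ℤ)} (h : γ ∈ Gamma1 M) :
    chiThree (γ 1 1) = 1 := by
  have e : ((γ 1 1 : ℤ) : ZMod M) = ((1 : ℤ) : ZMod M) := by simpa using ((Gamma1_mem M γ).mp h).2.1
  rw [chiThree_congr (b := 1) ?_]
  · rfl
  · have := (ZMod.intCast_eq_intCast_iff_dvd_sub _ _ M).mp e.symm
    exact (Int.natCast_dvd_natCast.mpr h3).trans this

theorem three_dvd_of_gamma0 {M : ℕ} (h3 : 3 ∣ M) {γ : SL(2, ℤ)} (h : γ ∈ Gamma0 M) :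
    (3 : ℤ) ∣ γ 1 0 :=
  (Int.natCast_dvd_natCast.mpr h3).trans ((ZMod.intCast_zmod_eq_zero_iff_dvd _ _).mp (Gamma0_mem.mp h))

variable {M : ℕ} [NeZero M] {f g : ℍ → ℂ}

theorem one_mem_strictPeriods_gamma1 (M : ℕ) :
    (1 : ℝ) ∈ (Gamma1 M : Subgroup (GL (Fin 2) ℝ)).strictPeriods := by
  simp [CongruenceSubgroup.strictPeriods_Gamma1]

namespace IsChiForm

/-- The bundled form. -/
def toForm (h : IsChiForm M f) : CuspForm (Gamma1 M : Subgroup (GL (Fin 2) ℝ)) 1 := h.cusp.toCuspForm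

@[simp] theorem coe_toForm (h : IsChiForm M f) : ⇑h.toForm = f := rfl

theorem periodic (h : IsChiForm M f) : Function.Periodic (f ∘ UpperHalfPlane.ofComplex) 1 := by
  simpa using SlashInvariantFormClass.periodic_comp_ofComplex h.toForm
    (one_mem_strictPeriods_gamma1 M)

omit [NeZero M] in
theorem holo (h : IsChiForm M f) : MDiff f := h.cusp.holo

omit [NeZero M] in
theorem bounded (h : IsChiForm M f) : IsBoundedAtImInfty f := h.cusp.toIsMF.bounded

theorem qCoeff_zero (h : IsChiForm M f) : qCoeff f 0 = 0 :=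
  CuspFormClass.qExpansion_coeff_zero h.toForm one_pos (one_mem_strictPeriods_gamma1 M)

theorem ext_qCoeff (hf : IsChiForm M f) {M' : ℕ} [NeZero M'] (hg : IsChiForm M' g)
    (h : ∀ n, qCoeff f n = qCoeff g n) : f = g :=
  eq_of_forall_qCoeff_eq hf.periodic hf.holo hf.bounded hg.periodic hg.holo hg.bounded h

theorem qCoeff_add (hf : IsChiForm M f) (hg : IsChiForm M g) (n : ℕ) :
    qCoeff (f + g) n = qCoeff f n + qCoeff g n := by
  have := congrArg (PowerSeries.coeff n)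
    (ModularForm.qExpansion_add one_pos (one_mem_strictPeriods_gamma1 M) hf.toForm hg.toForm)
  rwa [map_add] at this

theorem qCoeff_smul (hf : IsChiForm M f) (c : ℂ) (n : ℕ) :
    qCoeff (c • f) n = c * qCoeff f n := by
  have := congrArg (PowerSeries.coeff n)
    (ModularForm.qExpansion_smul one_pos (one_mem_strictPeriods_gamma1 M) c hf.toForm)
  rwa [map_smul] at this

end IsChiForm

/-- The space of these forms. -/
def chiSpace (M : ℕ) : Submodule ℂ (ℍ → ℂ) where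
  carrier := {f | IsChiForm M f}
  add_mem' {f g} hf hg := ⟨⟨hf.cusp.toIsMF.add hg.cusp.toIsMF, fun γ => by
      rw [SlashAction.add_slash]; exact (hf.cusp.zero γ).add (hg.cusp.zero γ)⟩, fun γ hγ => by
    rw [SlashAction.add_slash, hf.char γ hγ, hg.char γ hγ, smul_add]⟩
  zero_mem' := ⟨⟨IsMF.zero' 1, fun γ => by
      rw [SlashAction.zero_slash]; exact Filter.zero_zeroAtFilter _⟩, fun γ _ => by
    rw [SlashAction.zero_slash, smul_zero]⟩
  smul_mem' c f hf := ⟨⟨hf.cusp.toIsMF.smul c, fun γ => by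
      rw [ModularForm.SL_smul_slash]; exact (hf.cusp.zero γ).smul c⟩, fun γ hγ => by
    rw [ModularForm.SL_smul_slash, hf.char γ hγ, smul_comm]⟩

theorem IsChiForm.qCoeff_sub (hf : IsChiForm M f) (hg : IsChiForm M g) (n : ℕ) :
    qCoeff (f - g) n = qCoeff f n - qCoeff g n := by
  have h := IsChiForm.qCoeff_add hf ((chiSpace M).smul_mem (-1) hg) n
  rw [hg.qCoeff_smul, neg_one_smul, ← sub_eq_add_neg] at h
  rw [h]
  ring

/-! ### The translates occurring in the Hecke operators -/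

theorem isZeroAtImInfty_slash_sum (hf : IsChiForm M f) (p : ℕ) (γ : SL(2, ℤ)) :
    IsZeroAtImInfty (ModularForm.heckeU 1 p f ∣[(1 : ℤ)] γ) ∧
      IsZeroAtImInfty (ModularForm.heckeT 1 p f ∣[(1 : ℤ)] γ) := by
  have hc : IsCusp ((γ : GL (Fin 2) ℝ) • (OnePoint.infty : OnePoint ℝ))
      (Gamma1 M : Subgroup (GL (Fin 2) ℝ)) := by
    rw [Subgroup.IsArithmetic.isCusp_iff_isCusp_SL2Z, isCusp_SL2Z_iff']
    exact ⟨γ, rfl⟩
  have hU := CuspFormClass.isZeroAt_heckeU hf.toForm p hc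
  have hT := CuspFormClass.isZeroAt_heckeT hf.toForm p hc
  rw [OnePoint.isZeroAt_iff_forall_SL2Z ((Subgroup.IsArithmetic.isCusp_iff_isCusp_SL2Z _).mp hc)] at hU hT
  exact ⟨hU γ rfl, hT γ rfl⟩

theorem isCF_of_char {M : ℕ} (h3 : 3 ∣ M) {F : ℍ → ℂ} (hol : MDiff F)
    (zero : ∀ γ : SL(2, ℤ), IsZeroAtImInfty (F ∣[(1 : ℤ)] γ))
    (char : ∀ γ : SL(2, ℤ), γ ∈ Gamma0 M → F ∣[(1 : ℤ)] γ = (chiThree (γ 1 1) : ℂ) • F) :
    IsChiForm M F :=
  ⟨⟨⟨hol, fun γ hγ => by
      rw [char γ (gamma1_le_gamma0 M hγ), chiThree_eq_one_of_gamma1 h3 hγ, Int.cast_one, one_smul],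
    fun γ => (zero γ).isBoundedAtImInfty⟩, zero⟩, char⟩

section Move

open P2MW.S_ModularForm_heckeT_slash_eq_self_of_mem_Gamma0.ModularForm.HeckeSlashInvariance

omit [NeZero M] in
/-- The slash of a translate by an element of `Γ₀`. -/
theorem slash_translate (hf : IsChiForm M f) {γ δ : SL(2, ℤ)} {a b : GL (Fin 2) ℝ}
    (hδ : δ ∈ Gamma0 M) (_ha : 0 < (a.det : ℝ)) (hb : 0 < (b.det : ℝ))
    (h : a * Matrix.SpecialLinearGroup.mapGL ℝ γ = Matrix.SpecialLinearGroup.mapGL ℝ δ * b) :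
    (f ∣[(1 : ℤ)] a) ∣[(1 : ℤ)] γ = (chiThree (δ 1 1) : ℂ) • (f ∣[(1 : ℤ)] b) := by
  rw [ModularForm.SL_slash, ← SlashAction.slash_mul,
    show a * (γ : GL (Fin 2) ℝ) = (δ : GL (Fin 2) ℝ) * b from h, SlashAction.slash_mul,
    ← ModularForm.SL_slash, hf.char δ hδ, ModularForm.smul_slash,
    show UpperHalfPlane.σ b = .refl ℝ ℂ by rw [UpperHalfPlane.σ, if_pos hb]]
  rfl

variable {p : ℕ}

/-- The weight of a representative. -/
def repWeight (p : ℕ) : OnePoint (ZMod p) → ℤ := fun x => x.elim (chiThree p) fun _ => 1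

/-- The lower right entry of a representative. -/
def repCorner (p : ℕ) : OnePoint (ZMod p) → ℤ := fun x => x.elim 1 fun _ => p

theorem repWeight_mul_corner (x : OnePoint (ZMod p)) :
    repWeight p x * chiThree (repCorner p x) = chiThree p := by
  cases x with
  | infty => show chiThree p * chiThree 1 = _; rw [show chiThree 1 = 1 from rfl, mul_one]
  | coe j => show (1 : ℤ) * chiThree p = _; rw [one_mul]

theorem heckeRep_entries (hp : p ≠ 0) (x : OnePoint (ZMod p)) :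
    (heckeRep p x : Matrix (Fin 2) (Fin 2) ℝ) 1 0 = 0 ∧
      (heckeRep p x : Matrix (Fin 2) (Fin 2) ℝ) 1 1 = (repCorner p x : ℝ) ∧
      (∃ b : ℤ, (heckeRep p x : Matrix (Fin 2) (Fin 2) ℝ) 0 1 = b) ∧
      0 < ((heckeRep p x).det : ℝ) := by
  cases x with
  | infty =>
    show (ModularForm.heckeDiagMatrix p : Matrix (Fin 2) (Fin 2) ℝ) 1 0 = 0 ∧ _
    refine ⟨by simp [hp], by show (ModularForm.heckeDiagMatrix p : Matrix (Fin 2) (Fin 2) ℝ) 1 1 = ((1 : ℤ) : ℝ); simp [hp], ⟨0, ?_⟩,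
      ModularForm.det_heckeDiagMatrix_pos p⟩
    show (ModularForm.heckeDiagMatrix p : Matrix (Fin 2) (Fin 2) ℝ) 0 1 = _
    simp [hp]
  | coe j =>
    show (ModularForm.heckeMatrix p j.val : Matrix (Fin 2) (Fin 2) ℝ) 1 0 = 0 ∧ _
    refine ⟨by simp [hp], by show (ModularForm.heckeMatrix p j.val : Matrix (Fin 2) (Fin 2) ℝ) 1 1 = ((p : ℤ) : ℝ); simp [hp], ⟨j.val, ?_⟩,
      ModularForm.det_heckeMatrix_pos p j.val⟩
    show (ModularForm.heckeMatrix p j.val : Matrix (Fin 2) (Fin 2) ℝ) 0 1 = _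
    simp [hp]

/-- The operator `T_p` of character `χ₋₃`. -/
def chiT (p : ℕ) (f : ℍ → ℂ) : ℍ → ℂ :=
  (1 - (chiThree p : ℂ)) • ModularForm.heckeU 1 p f + (chiThree p : ℂ) • ModularForm.heckeT 1 p f

theorem chiT_eq_sum [NeZero p] (f : ℍ → ℂ) :
    chiT p f = ∑ x : OnePoint (ZMod p), (repWeight p x : ℂ) • (f ∣[(1 : ℤ)] heckeRep p x) := by
  rw [chiT, ModularForm.heckeT_eq_heckeU_add, heckeU_eq_sum_zmod]
  show _ = ∑ x : Option (ZMod p), (repWeight p x : ℂ) • (f ∣[(1 : ℤ)] heckeRep p x)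
  rw [Fintype.sum_option]
  show _ = (chiThree p : ℂ) • (f ∣[(1 : ℤ)] ModularForm.heckeDiagMatrix p) +
    ∑ x : ZMod p, ((1 : ℤ) : ℂ) • (f ∣[(1 : ℤ)] ModularForm.heckeMatrix p x.val)
  simp only [Int.cast_one, one_smul]
  module

theorem chiT_mem (h3 : 3 ∣ M) (hp : p.Prime) (hpM : ¬ p ∣ M) (hf : IsChiForm M f) :
    IsChiForm M (chiT p f) := by
  have : Fact p.Prime := ⟨hp⟩
  have : NeZero p := ⟨hp.ne_zero⟩
  refine isCF_of_char h3 ?_ (fun γ => ?_) (fun γ hγ => ?_)
  · exact ((ModularForm.mdifferentiable_heckeU hf.holo 1 p).const_smul _).add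
      ((ModularForm.mdifferentiable_heckeT hf.holo 1 p).const_smul _)
  · rw [chiT, SlashAction.add_slash, ModularForm.SL_smul_slash, ModularForm.SL_smul_slash]
    exact ((isZeroAtImInfty_slash_sum hf p γ).1.smul _).add
      ((isZeroAtImInfty_slash_sum hf p γ).2.smul _)
  have hcN : (M : ℤ) ∣ γ 1 0 :=
    (ZMod.intCast_zmod_eq_zero_iff_dvd _ _).mp (Gamma0_mem.mp hγ)
  rw [chiT_eq_sum, ModularForm.SL_slash, SlashAction.sum_slash, Finset.smul_sum]
  refine Eq.trans (Finset.sum_congr rfl fun x _ => ?_)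
    (Equiv.sum_comp (MulAction.toPerm (redMatrix p γ))
      fun x => (chiThree (γ 1 1) : ℂ) • ((repWeight p x : ℂ) • (f ∣[(1 : ℤ)] heckeRep p x)))
  obtain ⟨δ, hδ, hmul⟩ := heckeRep_mul hpM γ hcN x
  set y := MulAction.toPerm (redMatrix p γ) x with hy
  obtain ⟨hx0, hx1, -, hxd⟩ := heckeRep_entries hp.ne_zero x
  obtain ⟨hy0, hy1, ⟨b, hyb⟩, hyd⟩ := heckeRep_entries hp.ne_zero y
  have hδM : δ ∈ Gamma0 M := Gamma0_mem.mpr ((ZMod.intCast_zmod_eq_zero_iff_dvd _ _).mpr hδ)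
  rw [← ModularForm.SL_slash, ModularForm.SL_smul_slash, slash_translate hf hδM hxd hyd hmul, smul_smul,
    smul_smul, ← Int.cast_mul, ← Int.cast_mul]
  congr 2
  have e := congrArg (fun A : GL (Fin 2) ℝ => (A : Matrix (Fin 2) (Fin 2) ℝ) 1 1) hmul
  simp only [Units.val_mul, Matrix.mul_apply, Fin.sum_univ_two, mapGL_apply] at e
  rw [show MulAction.toPerm (redMatrix p γ) x = redMatrix p γ • x from rfl] at hy
  rw [hx0, hx1, ← hy, hyb, hy1, zero_mul, zero_add] at e
  have e' : repCorner p x * γ 1 1 = δ 1 0 * b + δ 1 1 * repCorner p y := by exact_mod_cast e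
  have hχ : chiThree (repCorner p x) * chiThree (γ 1 1) =
      chiThree (δ 1 1) * chiThree (repCorner p y) := by
    rw [← chiThree_mul, ← chiThree_mul]
    refine chiThree_congr ?_
    rw [e', add_sub_cancel_right]
    exact (three_dvd_of_gamma0 h3 hδM).mul_right _
  have hp3 : chiThree p * chiThree p = 1 := by
    have : ¬ (3 : ℤ) ∣ p := fun h => hpM (by
      rw [(Nat.prime_dvd_prime_iff_eq Nat.prime_three hp).mp (by exact_mod_cast h)] at h3
      exact h3)
    unfold chiThree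
    rcases (by omega : (p : ℤ) % 3 = 1 ∨ (p : ℤ) % 3 = 2) with h | h <;> simp [h]
  have hx := repWeight_mul_corner (p := p) x
  have hy' := repWeight_mul_corner (p := p) y
  linear_combination (-(repWeight p x * chiThree (δ 1 1)) + chiThree (γ 1 1) * repWeight p y) * hp3 -
    chiThree p * repWeight p x * chiThree (δ 1 1) * hy' +
    chiThree p * chiThree (γ 1 1) * repWeight p y * hx +
    chiThree p * repWeight p x * repWeight p y * hχ.symm

theorem qCoeff_chiT (hp : p.Prime) (hf : IsChiForm M f) (n : ℕ) :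
    qCoeff (chiT p f) n =
      qCoeff f (n * p) + (chiThree p : ℂ) * if p ∣ n then qCoeff f (n / p) else 0 := by
  have hU := qCoeff_heckeU hf.periodic hf.holo hf.bounded 1 hp.ne_zero n
  have hT := qCoeff_heckeT hf.periodic hf.holo hf.bounded 1 hp.ne_zero n
  simp only [qCoeff] at hU hT ⊢
  have aU := analyticAt_cuspFunction_zero one_pos (ModularForm.periodic_heckeU_comp_ofComplex hf.periodic 1 p)
    (ModularForm.mdifferentiable_heckeU hf.holo 1 p) (ModularForm.isBoundedAtImInfty_heckeU hf.bounded 1 p)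
  have aT := analyticAt_cuspFunction_zero one_pos (ModularForm.periodic_heckeT_comp_ofComplex hf.periodic 1 p)
    (ModularForm.mdifferentiable_heckeT hf.holo 1 p) (ModularForm.isBoundedAtImInfty_heckeT hf.bounded 1 p)
  rw [chiT, qExpansion_add (by rw [cuspFunction_smul aU.continuousAt]; exact analyticAt_const.smul aU) (by rw [cuspFunction_smul aT.continuousAt]; exact analyticAt_const.smul aT),
    qExpansion_smul aU, qExpansion_smul aT, map_add, PowerSeries.coeff_smul, PowerSeries.coeff_smul,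
    hU, hT, ModularForm.coeffHeckeU_apply, ModularForm.coeffHeckeT_apply]
  simp only [smul_eq_mul, show (1 : ℤ) - 1 = 0 from rfl, zpow_zero, one_mul, qCoeff]
  ring

/-- `U_p` preserves the forms. -/
theorem chiU_mem (h3 : 3 ∣ M) (hp : p.Prime) (hpM : p ∣ M) (hf : IsChiForm M f) :
    IsChiForm M (ModularForm.heckeU 1 p f) := by
  have : NeZero p := ⟨hp.ne_zero⟩
  refine isCF_of_char h3 (ModularForm.mdifferentiable_heckeU hf.holo 1 p)
    (fun γ => (isZeroAtImInfty_slash_sum hf p γ).1) (fun γ hγ => ?_)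
  have hcN : (M : ℤ) ∣ γ 1 0 :=
    (ZMod.intCast_zmod_eq_zero_iff_dvd _ _).mp (Gamma0_mem.mp hγ)
  have hc : (p : ℤ) ∣ γ 1 0 := (Int.natCast_dvd_natCast.mpr hpM).trans hcN
  rw [heckeU_eq_sum_zmod, ModularForm.SL_slash, SlashAction.sum_slash, Finset.smul_sum]
  refine Eq.trans (Finset.sum_congr rfl fun x _ => ?_)
    (Equiv.sum_comp (affinePerm γ ((ZMod.intCast_zmod_eq_zero_iff_dvd _ _).mpr hc))
      fun x => (chiThree (γ 1 1) : ℂ) • (f ∣[(1 : ℤ)] ModularForm.heckeMatrix p x.val))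
  obtain ⟨δ, hδ, hmul⟩ :=
    heckeMatrix_mul_of_dvd γ hc x
  have hδM : δ ∈ Gamma0 M := Gamma0_mem.mpr ((ZMod.intCast_zmod_eq_zero_iff_dvd _ _).mpr
    (hδ ▸ hcN.mul_left _))
  rw [← ModularForm.SL_slash, slash_translate hf hδM (ModularForm.det_heckeMatrix_pos p _)
    (ModularForm.det_heckeMatrix_pos p _) hmul]
  congr 2
  refine chiThree_congr ?_
  have e := congrArg (fun A : GL (Fin 2) ℝ => (A : Matrix (Fin 2) (Fin 2) ℝ) 1 1) hmul
  simp only [Units.val_mul, Matrix.mul_apply, Fin.sum_univ_two, mapGL_apply,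
    ModularForm.val_heckeMatrix hp.ne_zero, Matrix.of_apply, Matrix.cons_val', Matrix.cons_val_zero,
    Matrix.cons_val_one, Matrix.cons_val_fin_one, zero_mul, zero_add] at e
  rw [hδ] at e
  generalize (affinePerm
    γ _ x).val = j at e
  have e' : (p : ℤ) * γ 1 1 = p * (γ 1 0 * j + δ 1 1) := by
    apply Int.cast_injective (α := ℝ)
    push_cast at e ⊢
    linear_combination e
  have e2 := mul_left_cancel₀ (Int.natCast_ne_zero.mpr hp.ne_zero) e'
  rw [show δ 1 1 - γ 1 1 = -(γ 1 0 * j) by rw [e2]; ring]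
  exact ((three_dvd_of_gamma0 h3 hγ).mul_right _).neg_right

theorem qCoeff_chiU (hp : p ≠ 0) (hf : IsChiForm M f) (n : ℕ) :
    qCoeff (ModularForm.heckeU 1 p f) n = qCoeff f (n * p) := by
  rw [qCoeff_heckeU hf.periodic hf.holo hf.bounded 1 hp n, ModularForm.coeffHeckeU_apply]

/-- The operator `V_p`. -/
def chiV (p : ℕ) (f : ℍ → ℂ) : ℍ → ℂ := f ∣[(1 : ℤ)] ModularForm.heckeDiagMatrix p

theorem chiV_eq (f : ℍ → ℂ) : chiV p f = ModularForm.heckeT 1 p f - ModularForm.heckeU 1 p f := by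
  rw [chiV, ModularForm.heckeT_eq_heckeU_add, add_sub_cancel_left]

theorem chiV_mem (h3 : 3 ∣ M) (hp : p ≠ 0) (hf : IsChiForm M f) :
    IsChiForm (M * p) (chiV p f) := by
  refine isCF_of_char (h3.mul_right p) ?_ (fun γ => ?_) (fun γ hγ => ?_)
  · rw [chiV_eq]
    exact (ModularForm.mdifferentiable_heckeT hf.holo 1 p).sub (ModularForm.mdifferentiable_heckeU hf.holo 1 p)
  · rw [chiV_eq, sub_eq_add_neg, SlashAction.add_slash, SlashAction.neg_slash]
    exact (isZeroAtImInfty_slash_sum hf p γ).2.add (isZeroAtImInfty_slash_sum hf p γ).1.neg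
  obtain ⟨e, he⟩ : ((M * p : ℕ) : ℤ) ∣ γ 1 0 :=
    (ZMod.intCast_zmod_eq_zero_iff_dvd _ _).mp (Gamma0_mem.mp hγ)
  obtain ⟨δ, hδ, hmul⟩ := heckeDiagMatrix_mul_of_eq' hp γ (M * e) (by rw [he]; push_cast; ring)
  have hδM : δ ∈ Gamma0 M :=
    Gamma0_mem.mpr ((ZMod.intCast_zmod_eq_zero_iff_dvd _ _).mpr ⟨e, hδ⟩)
  rw [chiV, slash_translate hf hδM (ModularForm.det_heckeDiagMatrix_pos p)
    (ModularForm.det_heckeDiagMatrix_pos p) hmul]
  congr 2
  have h := congrArg (fun A : GL (Fin 2) ℝ => (A : Matrix (Fin 2) (Fin 2) ℝ) 1 1) hmul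
  simp only [Units.val_mul, Matrix.mul_apply, Fin.sum_univ_two, mapGL_apply,
    ModularForm.val_heckeDiagMatrix hp, Matrix.of_apply, Matrix.cons_val', Matrix.cons_val_zero,
    Matrix.cons_val_one, Matrix.cons_val_fin_one, zero_mul, zero_add, mul_zero, one_mul, mul_one] at h
  rw [Int.cast_inj] at h
  rw [h]

theorem qCoeff_chiV (hp : p ≠ 0) (hf : IsChiForm M f) (n : ℕ) :
    qCoeff (chiV p f) n = if p ∣ n then qCoeff f (n / p) else 0 := by
  have hU := qCoeff_heckeU hf.periodic hf.holo hf.bounded 1 hp n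
  have hT := qCoeff_heckeT hf.periodic hf.holo hf.bounded 1 hp n
  simp only [qCoeff] at hU hT ⊢
  have aU := analyticAt_cuspFunction_zero one_pos (ModularForm.periodic_heckeU_comp_ofComplex hf.periodic 1 p)
    (ModularForm.mdifferentiable_heckeU hf.holo 1 p) (ModularForm.isBoundedAtImInfty_heckeU hf.bounded 1 p)
  have aT := analyticAt_cuspFunction_zero one_pos (ModularForm.periodic_heckeT_comp_ofComplex hf.periodic 1 p)
    (ModularForm.mdifferentiable_heckeT hf.holo 1 p) (ModularForm.isBoundedAtImInfty_heckeT hf.bounded 1 p)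
  rw [chiV_eq, qExpansion_sub aT aU, map_sub, hT, hU, ModularForm.coeffHeckeU_apply,
    ModularForm.coeffHeckeT_apply, show (1 : ℤ) - 1 = 0 from rfl, zpow_zero]
  simp only [one_mul, qCoeff]
  ring

end Move

end FermatAgent.LTG.Galois
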