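import Fermat.Agent.LT.Galois.WeightTwo
import Fermat.Agent.LT.General.Galois.Space
import Fermat.Agent.LT.General.Galois.Frob
import Fermat.Agent.Descent3.Lift

/-!
# A normalised eigenform, supported prime to the level, from a weight one source
-/

set_option autoImplicit false

noncomputable section

open UpperHalfPlane CongruenceSubgroup Filter
open ModularFormClass (qCoeff)
open scoped MatrixGroups ModularForm Manifold
open FermatAgent.LT (chiThree chiThree_congr chiThree_mul q8Trace hexTheta)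
open FermatAgent.ModCurve.Forms (IsCF IsMF)

namespace FermatAgent.LTG.Galois

variable {M : ℕ} [NeZero M] {f : ℍ → ℂ}

omit [NeZero M] in
theorem mul_hexTheta_mem (h3 : 3 ∣ M) (hf : IsChiForm M f) :
    IsCF (Gamma0 M) 2 (f * hexTheta) := by
  have hsub : ∀ γ : SL(2, ℤ), γ ∈ Gamma0 M → γ ∈ Gamma0 3 := fun γ hγ =>
    Gamma0_mem.mpr ((ZMod.intCast_zmod_eq_zero_iff_dvd _ _).mpr (three_dvd_of_gamma0 h3 hγ))
  have hinv : ∀ γ ∈ Gamma0 M, (f * hexTheta) ∣[(2 : ℤ)] γ = f * hexTheta := by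
    intro γ hγ
    rw [show (2 : ℤ) = 1 + 1 from rfl, ModularForm.mul_slash_SL2, hf.char γ hγ,
      LT.hexTheta_slash_Gamma0 (hsub γ hγ), smul_mul_smul_comm,
      ← Int.cast_mul, ← chiThree_mul]
    have h3c : (3 : ℤ) ∣ γ 1 0 := three_dvd_of_gamma0 h3 hγ
    have hdet : γ 0 0 * γ 1 1 - γ 0 1 * γ 1 0 = 1 := by
      rw [← Matrix.det_fin_two]; exact γ.2
    have hd : ¬ (3 : ℤ) ∣ γ 1 1 := fun h => by
      have : (3 : ℤ) ∣ 1 := hdet ▸ dvd_sub (h.mul_left _) (h3c.mul_left _)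
      norm_num at this
    have : chiThree (γ 1 1 * γ 1 1) = 1 := by
      rw [chiThree_mul]
      unfold chiThree
      rcases (by omega : γ 1 1 % 3 = 1 ∨ γ 1 1 % 3 = 2) with h | h <;> simp [h]
    simp [this]
  have hzero : ∀ γ : SL(2, ℤ), IsZeroAtImInfty ((f * hexTheta) ∣[(2 : ℤ)] γ) := by
    intro γ
    rw [show (2 : ℤ) = 1 + 1 from rfl, ModularForm.mul_slash_SL2]
    have := ((Asymptotics.isLittleO_one_iff ℝ).mpr (hf.cusp.zero γ)).mul_isBigO
      (LT.isBoundedAtImInfty_hexTheta_slash γ)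
    simp only [Pi.one_apply, mul_one] at this
    exact (Asymptotics.isLittleO_one_iff ℝ).mp this
  exact ⟨⟨hf.holo.mul LT.mdifferentiable_hexTheta, hinv, fun γ => (hzero γ).isBoundedAtImInfty⟩,
    hzero⟩

theorem finiteDimensional_chiSpace (h3 : 3 ∣ M) : FiniteDimensional ℂ (chiSpace M) := by
  have := DSLift.finiteDimensional_cuspForm (ModCurve.Forms.hasIntegralStructure_two M)
  let L : chiSpace M →ₗ[ℂ] CuspForm (Gamma0 M : Subgroup (GL (Fin 2) ℝ)) 2 :=
    { toFun := fun v => (mul_hexTheta_mem h3 v.2).toCuspForm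
      map_add' := fun u v => DFunLike.coe_injective (add_mul (u : ℍ → ℂ) v hexTheta)
      map_smul' := fun c v => DFunLike.coe_injective (smul_mul_assoc c (v : ℍ → ℂ) hexTheta) }
  refine FiniteDimensional.of_injective L ((injective_iff_map_eq_zero L).mpr fun v hv => Subtype.ext ?_)
  have h1 : (v : ℍ → ℂ) * hexTheta = 0 := congrArg DFunLike.coe hv
  have hprod : qExpansion 1 (v : ℍ → ℂ) * LT.hexSeries.map (Int.castRingHom ℂ) = 0 := by
    rw [← LT.qExpansion_hexTheta, ← qExpansion_mul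
      (analyticAt_cuspFunction_zero one_pos v.2.periodic v.2.holo v.2.bounded)
      LT.analyticAt_cuspFunction_hexTheta, h1, qExpansion_zero]
  rcases mul_eq_zero.mp hprod with h | h
  · exact (qExpansion_eq_zero_iff one_pos v.2.periodic v.2.holo v.2.bounded).mp h
  · have := congrArg PowerSeries.constantCoeff h
    rw [← PowerSeries.coeff_zero_eq_constantCoeff_apply, PowerSeries.coeff_map,
      PowerSeries.coeff_zero_eq_constantCoeff_apply, LT.constantCoeff_hexSeries, map_one, map_zero] at this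
    exact absurd this one_ne_zero

theorem chiT_add (p : ℕ) (f g : ℍ → ℂ) : chiT p (f + g) = chiT p f + chiT p g := by
  simp only [chiT, ModularForm.heckeU_add, ModularForm.heckeT_add, smul_add]
  abel

theorem chiT_smul (p : ℕ) (c : ℂ) (f : ℍ → ℂ) : chiT p (c • f) = c • chiT p f := by
  simp only [chiT, ModularForm.heckeU_smul, ModularForm.heckeT_smul, smul_add, smul_comm c]

/-- `T_p` on the space. -/
def tOp (h3 : 3 ∣ M) {p : ℕ} (hp : p.Prime) (hpM : ¬ p ∣ M) : Module.End ℂ (chiSpace M) where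
  toFun v := ⟨chiT p v, chiT_mem h3 hp hpM v.2⟩
  map_add' u v := Subtype.ext (chiT_add p (u : ℍ → ℂ) v)
  map_smul' c v := Subtype.ext (chiT_smul p c (v : ℍ → ℂ))

theorem coeff_tOp (h3 : 3 ∣ M) {p : ℕ} (hp : p.Prime) (hpM : ¬ p ∣ M) (v : chiSpace M) (n : ℕ) :
    qCoeff (tOp h3 hp hpM v : ℍ → ℂ) n =
      qCoeff (v : ℍ → ℂ) (n * p) + (chiThree p : ℂ) * if p ∣ n then qCoeff (v : ℍ → ℂ) (n / p) else 0 :=
  qCoeff_chiT hp v.2 n

theorem tOp_commute (h3 : 3 ∣ M) {p q : ℕ} (hp : p.Prime) (hpM : ¬ p ∣ M) (hq : q.Prime)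
    (hqM : ¬ q ∣ M) : Commute (tOp h3 hp hpM) (tOp h3 hq hqM) := by
  rcases eq_or_ne p q with rfl | hpq
  · exact Commute.refl _
  refine LinearMap.ext fun v => Subtype.ext ?_
  simp only [Module.End.mul_apply]
  refine (tOp h3 hp hpM (tOp h3 hq hqM v)).2.ext_qCoeff (tOp h3 hq hqM (tOp h3 hp hpM v)).2 fun n => ?_
  simp only [coeff_tOp]
  have hcop : p.Coprime q := (Nat.coprime_primes hp hq).mpr hpq
  have h1 : p ∣ n * q ↔ p ∣ n := ⟨fun h => hcop.dvd_of_dvd_mul_right h, fun h => h.mul_right _⟩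
  have h2 : q ∣ n * p ↔ q ∣ n := ⟨fun h => hcop.symm.dvd_of_dvd_mul_right h, fun h => h.mul_right _⟩
  simp only [h1, h2]
  by_cases hpn : p ∣ n <;> by_cases hqn : q ∣ n
  · obtain ⟨k, rfl⟩ : p * q ∣ n := hcop.mul_dvd_of_dvd_of_dvd hpn hqn
    have e1 : p * q * k / p = q * k := by rw [mul_assoc, Nat.mul_div_cancel_left _ hp.pos]
    have e2 : p * q * k / q = p * k := by rw [mul_comm p q, mul_assoc, Nat.mul_div_cancel_left _ hq.pos]
    rw [if_pos hpn, if_pos hqn, if_pos hpn, if_pos hqn, e1, e2, if_pos (dvd_mul_right _ _),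
      if_pos (dvd_mul_right _ _), Nat.mul_div_cancel_left _ hq.pos, Nat.mul_div_cancel_left _ hp.pos,
      show p * q * k * p * q = p * q * k * q * p by ring,
      show p * q * k * p / q = p * k * p by
        rw [show p * q * k * p = q * (p * k * p) by ring, Nat.mul_div_cancel_left _ hq.pos],
      show p * q * k * q / p = q * k * q by
        rw [show p * q * k * q = p * (q * k * q) by ring, Nat.mul_div_cancel_left _ hp.pos]]
    ring
  · have hq' : ¬ q ∣ n / p := fun h => hqn (h.trans (Nat.div_dvd_of_dvd hpn))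
    obtain ⟨k, rfl⟩ := hpn
    rw [Nat.mul_div_cancel_left _ hp.pos] at hq'
    simp only [dvd_mul_right, if_true, Nat.mul_div_cancel_left _ hp.pos, if_neg hq', if_neg hqn,
      show p * k * p * q = p * k * q * p by ring, mul_zero, add_zero,
      show p * k * q / p = k * q by rw [mul_assoc, Nat.mul_div_cancel_left _ hp.pos]]
  · have hp' : ¬ p ∣ n / q := fun h => hpn (h.trans (Nat.div_dvd_of_dvd hqn))
    obtain ⟨k, rfl⟩ := hqn
    rw [Nat.mul_div_cancel_left _ hq.pos] at hp'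
    simp only [dvd_mul_right, if_true, Nat.mul_div_cancel_left _ hq.pos, if_neg hp', if_neg hpn,
      show q * k * p * q = q * k * q * p by ring, mul_zero, add_zero,
      show q * k * p / q = k * p by rw [mul_assoc, Nat.mul_div_cancel_left _ hq.pos]]
  · simp only [if_neg hpn, if_neg hqn, mul_zero, add_zero]
    congr 1
    ring

/-- Removing the coefficients divisible by one prime of the level, and reading off `a (d n)`. -/
theorem exists_uPow (h3 : 3 ∣ M) (d : ℕ) (hd : d ≠ 0) (hdM : ∀ p : ℕ, p.Prime → p ∣ d → p ∣ M)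
    (hf : IsChiForm M f) : ∃ h, IsChiForm M h ∧ ∀ n, qCoeff h n = qCoeff f (d * n) := by
  induction d using Nat.strong_induction_on generalizing f with
  | _ d ih =>
  by_cases h1 : d = 1
  · exact ⟨f, hf, fun n => by rw [h1, one_mul]⟩
  obtain ⟨p, hp, k, rfl⟩ : ∃ p, p.Prime ∧ p ∣ d :=
    ⟨d.minFac, Nat.minFac_prime h1, d.minFac_dvd⟩
  have hk : k ≠ 0 := fun h => hd (by rw [h, mul_zero])
  obtain ⟨h, hh, hc⟩ := ih k
    ((lt_mul_iff_one_lt_left (Nat.pos_of_ne_zero hk)).mpr hp.one_lt) hk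
    (fun q hq hqk => hdM q hq (hqk.mul_left p)) (chiU_mem h3 hp (hdM p hp (dvd_mul_right p k)) hf)
  exact ⟨h, hh, fun n => by rw [hc, qCoeff_chiU hp.ne_zero hf]; ring_nf⟩

theorem exists_deplete (h3 : 3 ∣ M) (hf : IsChiForm M f) (s : Finset ℕ)
    (hs : ∀ p ∈ s, p.Prime ∧ p ∣ M) :
    ∃ (N : ℕ) (_ : NeZero N) (g : ℍ → ℂ), IsChiForm N g ∧ M ∣ N ∧
      (∀ p : ℕ, p.Prime → p ∣ N → p ∣ M) ∧
      ∀ n, qCoeff g n = if ∃ p ∈ s, p ∣ n then 0 else qCoeff f n := by
  classical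
  induction s using Finset.induction_on with
  | empty => exact ⟨M, inferInstance, f, hf, dvd_rfl, fun _ _ h => h, fun n => by simp⟩
  | @insert p s hps ih =>
    obtain ⟨N, hN, g, hg, hMN, hprimes, hc⟩ := ih fun q hq => hs q (Finset.mem_insert_of_mem hq)
    obtain ⟨hp, hpM⟩ := hs p (Finset.mem_insert_self p s)
    have : NeZero (N * p) := ⟨mul_ne_zero hN.out hp.ne_zero⟩
    have h3N : 3 ∣ N := h3.trans hMN
    have hU := chiU_mem h3N hp (hpM.trans hMN) hg
    have hV := chiV_mem h3N hp.ne_zero hU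
    have hg' : IsChiForm (N * p) g := by
      refine isCF_of_char (h3N.mul_right p) hg.holo hg.cusp.zero fun γ hγ => hg.char γ ?_
      rw [Gamma0_mem, ZMod.intCast_zmod_eq_zero_iff_dvd] at hγ ⊢
      exact (Int.natCast_dvd_natCast.mpr (dvd_mul_right N p)).trans hγ
    refine ⟨N * p, this, g - chiV p (ModularForm.heckeU 1 p g), (chiSpace (N * p)).sub_mem hg' hV,
      hMN.mul_right p, fun q hq hqN => ?_, fun n => ?_⟩
    · rcases hq.dvd_mul.mp hqN with h | h
      · exact hprimes q hq h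
      · rwa [(Nat.prime_dvd_prime_iff_eq hq hp).mp h]
    rw [hg'.qCoeff_sub hV, qCoeff_chiV hp.ne_zero hU, qCoeff_chiU hp.ne_zero hg]
    by_cases hpn : p ∣ n
    · rw [if_pos hpn, if_pos ⟨p, Finset.mem_insert_self p s, hpn⟩, Nat.div_mul_cancel hpn, sub_self]
    · rw [if_neg hpn, sub_zero, hc]
      exact if_congr ⟨fun ⟨q, hq, h⟩ => ⟨q, Finset.mem_insert_of_mem hq, h⟩, fun ⟨q, hq, h⟩ =>
        ((Finset.mem_insert.mp hq).elim (fun e => absurd (e ▸ h) hpn) fun hq => ⟨q, hq, h⟩)⟩ rfl rfl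

end FermatAgent.LTG.Galois

namespace FermatAgent.LTG.WeightOneSource

open FermatAgent.LTG.Galois

variable {S : Setup} (W : WeightOneSource S)

theorem isChiForm [NeZero W.M] : IsChiForm W.M (W.f : ℍ → ℂ) :=
  ⟨ModCurve.Forms.isCF_coe W.f, fun γ hγ => by
    rw [W.character γ hγ]
    congr 2
    have h1 : 0 ≤ (γ 1 1 : ℤ) % (W.M : ℤ) := Int.emod_nonneg _ (by have := W.M_pos; omega)
    have h2 : (γ 1 1 : ℤ) % (W.M : ℤ) % 3 = (γ 1 1 : ℤ) % 3 :=
      Int.emod_emod_of_dvd _ (Int.natCast_dvd_natCast.mpr W.three_dvd)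
    unfold EisensteinWeightOne.chiNegThree LT.chiThree
    split_ifs <;> omega⟩

/-- **The eigenform**: normalised, eigen at every prime not dividing the level, zero off the
coefficients prime to the level, with the prescribed eigenvalues at the split primes. -/
theorem exists_eigen : ∃ (N : ℕ) (_ : NeZero N) (g : ℍ → ℂ), IsChiForm N g ∧ 3 ∣ N ∧
    (∀ p : ℕ, p.Prime → (p ∣ N ↔ p ∣ W.M)) ∧ qCoeff g 1 = 1 ∧
    (∀ p : ℕ, p.Prime → p ∣ N → ∀ n, qCoeff g (p * n) = 0) ∧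
    (∀ p : ℕ, p.Prime → ¬ p ∣ N → ∀ n, qCoeff g (p * n) +
      (chiThree p : ℂ) * (if p ∣ n then qCoeff g (n / p) else 0) = qCoeff g p * qCoeff g n) ∧
    ∀ p : ℕ, p.Prime → p ∉ W.exc → ¬ p ∣ N → S.SplitsInF p →
      ∀ A : ValuationSubring (AlgebraicClosure ℚ), A.LiesOverPrime p → ∀ σ, A.IsFrobeniusAt σ p →
        qCoeff g p = (q8Trace (S.ρ σ) : ℂ) := by
  classical
  have : NeZero W.M := ⟨W.M_pos.ne'⟩
  have h3 := W.three_dvd
  have := finiteDimensional_chiSpace (M := W.M) h3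
  -- the relations
  let good := {x : ℕ × (AlgebraicClosure ℚ ≃ₐ[ℚ] AlgebraicClosure ℚ) //
    x.1.Prime ∧ ¬ x.1 ∣ W.M ∧ x.1 ∉ W.exc ∧ S.SplitsInF x.1 ∧
      ∃ A : ValuationSubring (AlgebraicClosure ℚ), A.LiesOverPrime x.1 ∧ A.IsFrobeniusAt x.2 x.1}
  let R : Submodule ℂ (chiSpace W.M) := ⨅ x : good,
    LinearMap.ker (tOp h3 x.2.1 x.2.2.1 - (q8Trace (S.ρ x.1.2) : ℂ) • (1 : Module.End ℂ (chiSpace W.M)))
  have hone : ∀ p : ℕ, p.Prime → ¬ p ∣ W.M → S.SplitsInF p → chiThree (p : ℤ) = 1 := by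
    intro p hp hpM hs
    have := S.mod_three_of_splitsInF hp (fun h => hpM (h.trans W.m_dvd)) hs
    unfold LT.chiThree
    rw [if_pos (by omega)]
  have hfR : (⟨_, W.isChiForm⟩ : chiSpace W.M) ∈ R := by
    refine Submodule.mem_iInf _ |>.mpr fun ⟨⟨p, σ⟩, hp, hpM, hexc, hs, A, hA, hσ⟩ => ?_
    rw [LinearMap.mem_ker, LinearMap.sub_apply, LinearMap.smul_apply, Module.End.one_apply,
      sub_eq_zero]
    refine Subtype.ext ((tOp h3 hp hpM _).2.ext_qCoeff
      ((chiSpace W.M).smul_mem _ W.isChiForm) fun n => ?_)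
    rw [coeff_tOp]
    show qCoeff ⇑W.f (n * p) + (chiThree p : ℂ) * (if p ∣ n then qCoeff ⇑W.f (n / p) else 0) =
      qCoeff ((q8Trace (S.ρ σ) : ℂ) • ⇑W.f) n
    rw [W.isChiForm.qCoeff_smul, hone p hp hpM hs, Int.cast_one, one_mul,
      ← W.hecke p hp hexc hpM hs A hA σ hσ n, mul_comm n p]
  have hR : R ≠ ⊥ := fun h => W.f_ne_zero (by
    rw [h, Submodule.mem_bot] at hfR
    exact DFunLike.coe_injective (congrArg Subtype.val hfR))
  let T : Set (Module.End ℂ (chiSpace W.M)) :=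
    {A | ∃ (p : ℕ) (hp : p.Prime) (hpM : ¬ p ∣ W.M), A = tOp h3 hp hpM}
  have hcomm : ∀ A ∈ T, ∀ B ∈ T, Commute A B := by
    rintro A ⟨p, hp, hpM, rfl⟩ B ⟨q, hq, hqM, rfl⟩
    exact tOp_commute h3 hp hpM hq hqM
  obtain ⟨v, hvR, hv0, hve⟩ := Descent3.exists_common_eigenvector T hcomm R hR (by
    rintro A ⟨q, hq, hqM, rfl⟩ x hx
    refine Submodule.mem_iInf _ |>.mpr fun y => ?_
    have hy := Submodule.mem_iInf _ |>.mp hx y
    rw [LinearMap.mem_ker, LinearMap.sub_apply, LinearMap.smul_apply, Module.End.one_apply,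
      sub_eq_zero] at hy ⊢
    rw [← Module.End.mul_apply, (tOp_commute h3 y.2.1 y.2.2.1 hq hqM).eq, Module.End.mul_apply, hy,
      map_smul])
  have hrel : ∀ (p : ℕ) (hp : p.Prime) (hpM : ¬ p ∣ W.M), ∃ c : ℂ, tOp h3 hp hpM v = c • v ∧
      ∀ n, qCoeff (v : ℍ → ℂ) (n * p) +
        (chiThree p : ℂ) * (if p ∣ n then qCoeff (v : ℍ → ℂ) (n / p) else 0) =
          c * qCoeff (v : ℍ → ℂ) n := by
    intro p hp hpM
    obtain ⟨c, hc⟩ := hve _ ⟨p, hp, hpM, rfl⟩
    refine ⟨c, hc, fun n => ?_⟩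
    rw [← coeff_tOp h3 hp hpM, hc]
    exact v.2.qCoeff_smul c n
  -- the first coefficient
  obtain ⟨d, hd, hmin⟩ : ∃ d, qCoeff (v : ℍ → ℂ) d ≠ 0 ∧
      ∀ k < d, qCoeff (v : ℍ → ℂ) k = 0 := by
    have hex : ∃ d, qCoeff (v : ℍ → ℂ) d ≠ 0 := by
      by_contra! h
      exact hv0 (Subtype.ext (v.2.ext_qCoeff (0 : chiSpace W.M).2 fun n => by
        rw [h n]; simp [qCoeff, qExpansion_zero]))
    exact ⟨Nat.find hex, Nat.find_spec hex, fun k hk => not_not.mp (Nat.find_min hex hk)⟩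
  have hd0 : d ≠ 0 := fun h => hd (h ▸ v.2.qCoeff_zero)
  have hdM : ∀ p : ℕ, p.Prime → p ∣ d → p ∣ W.M := by
    intro p hp hpd
    by_contra hpM
    obtain ⟨k, rfl⟩ := hpd
    obtain ⟨c, -, hc⟩ := hrel p hp hpM
    have hk0 : 0 < k := Nat.pos_of_ne_zero fun h => hd0 (by rw [h, mul_zero])
    have hlt : k < p * k := (lt_mul_iff_one_lt_left hk0).mpr hp.one_lt
    have h := hc k
    rw [hmin k hlt, mul_comm k p] at h
    refine hd ?_
    split_ifs at h with hdvd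
    · rw [hmin (k / p) (lt_of_le_of_lt (Nat.div_le_self _ _) hlt)] at h
      simpa using h
    · simpa using h
  obtain ⟨h, hh, hhc⟩ := exists_uPow h3 d hd0 hdM v.2
  obtain ⟨N, hN, g, hg, hMN, hNM, hgc⟩ := exists_deplete h3 hh W.M.primeFactors fun p hp =>
    ⟨Nat.prime_of_mem_primeFactors hp, Nat.dvd_of_mem_primeFactors hp⟩
  have hiff : ∀ p : ℕ, p.Prime → (p ∣ N ↔ p ∣ W.M) := fun p hp => ⟨hNM p hp, fun h => h.trans hMN⟩
  set a := qCoeff (v : ℍ → ℂ) d with ha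
  have hs : ∀ {q : ℕ}, q.Prime → ¬ q ∣ W.M → ∀ n,
      (∃ p ∈ W.M.primeFactors, p ∣ n * q) ↔ ∃ p ∈ W.M.primeFactors, p ∣ n := fun {q} hq hqM n =>
    ⟨fun ⟨p, hp, hpn⟩ => ⟨p, hp, ((Nat.prime_of_mem_primeFactors hp).dvd_mul.mp hpn).elim id fun h =>
      absurd (((Nat.prime_dvd_prime_iff_eq (Nat.prime_of_mem_primeFactors hp) hq).mp h) ▸
        Nat.dvd_of_mem_primeFactors hp) hqM⟩,
      fun ⟨p, hp, hpn⟩ => ⟨p, hp, hpn.mul_right q⟩⟩
  refine ⟨N, hN, a⁻¹ • g, (chiSpace N).smul_mem _ hg, h3.trans hMN, hiff, ?_, ?_, ?_⟩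
  · rw [hg.qCoeff_smul, hgc, if_neg, hhc, mul_one, inv_mul_cancel₀ hd]
    rintro ⟨p, hp, hp1⟩
    exact (Nat.prime_of_mem_primeFactors hp).ne_one (Nat.dvd_one.mp hp1)
  · intro p hp hpN n
    rw [hg.qCoeff_smul, hgc, if_pos ⟨p, Nat.mem_primeFactors.mpr ⟨hp, (hiff p hp).mp hpN,
      W.M_pos.ne'⟩, dvd_mul_right p n⟩, mul_zero]
  -- the relations of the depleted form
  have hgrel : ∀ (p : ℕ) (hp : p.Prime) (hpN : ¬ p ∣ N), ∃ c : ℂ,
      qCoeff (a⁻¹ • g) p = c ∧ tOp h3 hp ((hiff p hp).not.mp hpN) v = c • v ∧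
      ∀ n, qCoeff (a⁻¹ • g) (p * n) +
        (chiThree p : ℂ) * (if p ∣ n then qCoeff (a⁻¹ • g) (n / p) else 0) =
          c * qCoeff (a⁻¹ • g) n := by
    intro p hp hpN
    have hpM := (hiff p hp).not.mp hpN
    have hpd : ¬ p ∣ d := fun hdd => hpM (hdM p hp hdd)
    obtain ⟨c, hcv, hc⟩ := hrel p hp hpM
    have key : ∀ n, qCoeff (a⁻¹ • g) (p * n) +
        (chiThree p : ℂ) * (if p ∣ n then qCoeff (a⁻¹ • g) (n / p) else 0) =
          c * qCoeff (a⁻¹ • g) n := by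
      intro n
      simp only [hg.qCoeff_smul, hgc, mul_comm p n, hs hp hpM]
      by_cases hb : ∃ q ∈ W.M.primeFactors, q ∣ n
      · obtain ⟨q, hq, hqn⟩ := hb
        have : p ∣ n → ∃ r ∈ W.M.primeFactors, r ∣ n / p := fun hpn => ⟨q, hq, by
          obtain ⟨k, rfl⟩ := hpn
          rw [Nat.mul_div_cancel_left _ hp.pos]
          exact ((Nat.prime_of_mem_primeFactors hq).dvd_mul.mp hqn).resolve_left fun h =>
            hpM (((Nat.prime_dvd_prime_iff_eq (Nat.prime_of_mem_primeFactors hq) hp).mp h) ▸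
              Nat.dvd_of_mem_primeFactors hq)⟩
        have hb' : ∃ r ∈ W.M.primeFactors, r ∣ n := ⟨q, hq, hqn⟩
        simp only [hb', if_true]
        by_cases hpn : p ∣ n
        · rw [if_pos hpn, if_pos (this hpn)]
          simp
        · rw [if_neg hpn]
          simp
      · rw [if_neg hb, if_neg hb]
        have hdvd : p ∣ d * n ↔ p ∣ n :=
          ⟨fun h => (hp.dvd_mul.mp h).resolve_left hpd, fun h => h.mul_left d⟩
        have := hc (d * n)
        simp only [hdvd] at this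
        simp only [hhc, ← mul_assoc]
        by_cases hpn : p ∣ n
        · rw [if_pos hpn] at this ⊢
          rw [if_neg fun h2 => hb (h2.imp fun r hr => ⟨hr.1, hr.2.trans (Nat.div_dvd_of_dvd hpn)⟩),
            ← Nat.mul_div_assoc d hpn]
          linear_combination a⁻¹ * this
        · rw [if_neg hpn] at this ⊢
          linear_combination a⁻¹ * this
    refine ⟨c, ?_, hcv, key⟩
    have := key 1
    rw [mul_one, if_neg (fun h1 => hp.ne_one (Nat.dvd_one.mp h1)), mul_zero, add_zero] at this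
    rw [this, hg.qCoeff_smul, hgc, if_neg, hhc, mul_one, inv_mul_cancel₀ hd, mul_one]
    rintro ⟨q, hq, hq1⟩
    exact (Nat.prime_of_mem_primeFactors hq).ne_one (Nat.dvd_one.mp hq1)
  refine ⟨fun p hp hpN n => ?_, fun p hp hexc hpN hsp A hA σ hσ => ?_⟩
  · obtain ⟨c, hc1, -, hc2⟩ := hgrel p hp hpN
    rw [hc1, hc2]
  · obtain ⟨c, hc1, hc2, -⟩ := hgrel p hp hpN
    have hpM := (hiff p hp).not.mp hpN
    have hy := Submodule.mem_iInf _ |>.mp hvR ⟨(p, σ), hp, hpM, hexc, hsp, A, hA, hσ⟩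
    rw [LinearMap.mem_ker, LinearMap.sub_apply, LinearMap.smul_apply, Module.End.one_apply,
      sub_eq_zero, hc2] at hy
    rw [hc1]
    exact smul_left_injective ℂ hv0 hy

end FermatAgent.LTG.WeightOneSource

end
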