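import Fermat.Agent.LT.Galois.Quaternion
import Fermat.Agent.LT.Galois.HexTheta
import Fermat.Prelude.Def_LanglandsTunnell_ExplicitLift
import Fermat.Agent.GalRep.Construct.Datum

/-!
# Traces and determinants of a lift of `GL₂(𝔽₃)` to `GL₂(ℤ[√-2])`
-/

set_option autoImplicit false

noncomputable section

open Matrix
open FermatAgent.LT (IsQ8 quaternionSubgroup q8Trace chiThree)
open FLT.ExplicitLift (red)

namespace FermatAgent.LTG.Galois

local notation "G₂" => GL (Fin 2) (ZMod 3)
local notation "R₂" => Zsqrtd (-2)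

/-- The sign of a nonzero element of `𝔽₃`. -/
def sgnThree (x : ZMod 3) : ℤ := chiThree x.val

theorem sgnThree_natCast (p : ℕ) : sgnThree (p : ZMod 3) = chiThree p := by
  rw [sgnThree, ZMod.val_natCast]
  exact LT.chiThree_congr (by omega)

theorem sq_eq_smul_sub {R : Type*} [CommRing R] (X : Matrix (Fin 2) (Fin 2) R) :
    X * X = X.trace • X - X.det • 1 := by
  ext i j
  rw [Matrix.sub_apply, Matrix.smul_apply, Matrix.smul_apply, Matrix.mul_apply, Fin.sum_univ_two,
    Matrix.trace_fin_two, Matrix.det_fin_two]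
  fin_cases i <;> fin_cases j <;> simp <;> ring

theorem trace_sq {R : Type*} [CommRing R] (X : Matrix (Fin 2) (Fin 2) R) :
    (X * X).trace = X.trace * X.trace - 2 * X.det := by
  rw [sq_eq_smul_sub, Matrix.trace_sub, Matrix.trace_smul, Matrix.trace_smul, Matrix.trace_one,
    smul_eq_mul, smul_eq_mul, Fintype.card_fin]
  push_cast
  ring

theorem trace_cube {R : Type*} [CommRing R] (X : Matrix (Fin 2) (Fin 2) R) :
    (X * X * X).trace = X.trace * X.trace * X.trace - 3 * (X.trace * X.det) := by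
  rw [sq_eq_smul_sub X, sub_mul, Matrix.trace_sub, smul_mul_assoc, smul_mul_assoc, one_mul,
    Matrix.trace_smul, Matrix.trace_smul, trace_sq, smul_eq_mul, smul_eq_mul]
  ring

/-- The embedding sending `√-2` to `i√2`. -/
def iotaSqrtNegTwo : R₂ →+* ℂ :=
  Zsqrtd.lift ⟨Complex.I * Real.sqrt 2, by
    have h : (Real.sqrt 2 : ℂ) ^ 2 = 2 := by
      rw [← Complex.ofReal_pow, Real.sq_sqrt (by norm_num)]; norm_num
    push_cast
    linear_combination (Real.sqrt 2 : ℂ) ^ 2 * Complex.I_sq - h⟩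

theorem iotaSqrtNegTwo_injective : Function.Injective iotaSqrtNegTwo :=
  Zsqrtd.lift_injective _ fun n h => by nlinarith [mul_self_nonneg n]

/-- The other embedding. -/
def iotaBar : R₂ →+* ℂ := iotaSqrtNegTwo.comp (starRingEnd R₂)

theorem iotaBar_injective : Function.Injective iotaBar :=
  iotaSqrtNegTwo_injective.comp (star_injective (R := R₂))

variable (Ψ : G₂ →* GL (Fin 2) R₂)
  (hΨ : ∀ g, Matrix.GeneralLinearGroup.map red (Ψ g) = g)

/-- The lift as complex matrices. -/
def cplxLift : G₂ →* Matrix (Fin 2) (Fin 2) ℂ :=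
  iotaSqrtNegTwo.mapMatrix.toMonoidHom.comp ((Units.coeHom _).comp Ψ)

theorem cplxLift_apply (g : G₂) :
    cplxLift Ψ g = ((Ψ g : GL (Fin 2) R₂) : Matrix (Fin 2) (Fin 2) R₂).map iotaSqrtNegTwo := rfl

theorem trace_cplxLift (g : G₂) :
    (cplxLift Ψ g).trace = iotaSqrtNegTwo ((Ψ g : GL (Fin 2) R₂) : Matrix (Fin 2) (Fin 2) R₂).trace := by
  rw [cplxLift_apply, Matrix.trace_fin_two, Matrix.trace_fin_two, map_add]
  rfl

include hΨ

theorem cplxLift_injective : Function.Injective (cplxLift Ψ) := fun g h e => by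
  rw [cplxLift_apply, cplxLift_apply] at e
  rw [← hΨ g, ← hΨ h, Units.ext (Matrix.map_injective iotaSqrtNegTwo_injective e)]

theorem det_lift (g : G₂) : ((Ψ g : GL (Fin 2) R₂) : Matrix (Fin 2) (Fin 2) R₂).det =
    (sgnThree (g : Matrix (Fin 2) (Fin 2) (ZMod 3)).det : R₂) := by
  set d := ((Ψ g : GL (Fin 2) R₂) : Matrix (Fin 2) (Fin 2) R₂).det with hd
  have hu : IsUnit d := (Matrix.isUnit_iff_isUnit_det _).mp (Ψ g).isUnit
  have hn := (Zsqrtd.norm_eq_one_iff' (by norm_num) d).mpr hu
  rw [Zsqrtd.norm_def] at hn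
  have him : d.im = 0 := by nlinarith [mul_self_nonneg d.re, mul_self_nonneg d.im]
  rw [him] at hn
  have hre : d.re = 1 ∨ d.re = -1 := mul_self_eq_one_iff.mp (by linarith)
  have hred : red d = (g : Matrix (Fin 2) (Fin 2) (ZMod 3)).det := by
    have e : red.mapMatrix ((Ψ g : GL (Fin 2) R₂) : Matrix (Fin 2) (Fin 2) R₂) =
        (g : Matrix (Fin 2) (Fin 2) (ZMod 3)) := by
      have e1 := congrArg (fun x : G₂ => (x : Matrix (Fin 2) (Fin 2) (ZMod 3))) (hΨ g)
      simpa using e1
    rw [hd, RingHom.map_det, e]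
  rw [← hred]
  rcases hre with h | h
  · rw [show d = 1 from Zsqrtd.ext h him, map_one]
    rfl
  · rw [show d = -1 from Zsqrtd.ext h him, map_neg, map_one]
    rfl

theorem det_cplxLift (g : G₂) :
    (cplxLift Ψ g).det = (sgnThree (g : Matrix (Fin 2) (Fin 2) (ZMod 3)).det : ℂ) := by
  rw [cplxLift_apply, ← RingHom.mapMatrix_apply, ← RingHom.map_det, det_lift Ψ hΨ, map_intCast]

theorem det_cplxLift_q8 {g : G₂} (hg : g ∈ quaternionSubgroup) : (cplxLift Ψ g).det = 1 := by
  rw [det_cplxLift Ψ hΨ, hg.1, show sgnThree (1 : ZMod 3) = 1 from rfl, Int.cast_one]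

omit hΨ in
theorem det_cplxLift_ne_zero (g : G₂) : (cplxLift Ψ g).det ≠ 0 :=
  ((Matrix.isUnit_iff_isUnit_det _).mp (IsUnit.map (cplxLift Ψ) (Group.isUnit g))).ne_zero

theorem cplxLift_neg_one : cplxLift Ψ (-1) = -1 := by
  set X := cplxLift Ψ (-1) with hX
  have hd : X.det = 1 := det_cplxLift_q8 Ψ hΨ (show IsQ8 _ from ⟨by decide, Or.inr (Or.inr rfl)⟩)
  have h2 : X * X = 1 := by rw [hX, ← map_mul, neg_mul_neg, one_mul, map_one]
  have h := sq_eq_smul_sub X
  rw [h2, hd, one_smul, eq_sub_iff_add_eq] at h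
  have ht : X.trace * X.trace = 4 := by
    have := congrArg Matrix.det h
    rw [Matrix.det_smul, hd, Fintype.card_fin] at this
    rw [show (1 : Matrix (Fin 2) (Fin 2) ℂ) + 1 = (2 : ℂ) • 1 by rw [two_smul], Matrix.det_smul,
      Matrix.det_one, Fintype.card_fin] at this
    linear_combination -this
  have hne : X ≠ 1 := fun e => by
    have := cplxLift_injective Ψ hΨ (e.trans (map_one (cplxLift Ψ)).symm)
    exact absurd this (by decide)
  have hcases : X.trace = 2 ∨ X.trace = -2 :=
    mul_self_eq_mul_self_iff.mp (by rw [ht]; norm_num)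
  rcases hcases with e | e <;> rw [e, ← two_smul ℂ] at h
  · exact absurd (smul_right_injective _ (two_ne_zero (α := ℂ)) h.symm) hne
  · rw [← neg_neg X]
    refine congrArg Neg.neg (smul_right_injective (Matrix (Fin 2) (Fin 2) ℂ) (two_ne_zero (α := ℂ)) ?_)
    show (2 : ℂ) • (-X) = (2 : ℂ) • 1
    rw [smul_neg, ← neg_smul, h]

theorem trace_cplxLift_q8 {g : G₂} (hg : g ∈ quaternionSubgroup) :
    (cplxLift Ψ g).trace = (q8Trace g : ℂ) := by
  unfold q8Trace
  split_ifs with h1 h2
  · rw [h1, map_one, Matrix.trace_one, Fintype.card_fin]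
    norm_num
  · rw [h2, cplxLift_neg_one Ψ hΨ, Matrix.trace_neg, Matrix.trace_one, Fintype.card_fin]
    norm_num
  · have hsq : g * g = -1 := by
      rcases hg.2 with h | h | h
      · refine Units.ext ?_
        have := sq_eq_smul_sub (g : Matrix (Fin 2) (Fin 2) (ZMod 3))
        rw [h, hg.1, zero_smul, one_smul, zero_sub] at this
        simpa using this
      · exact absurd (Units.ext h) h1
      · exact absurd (Units.ext (h.trans (by simp))) h2
    have h := sq_eq_smul_sub (cplxLift Ψ g)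
    rw [det_cplxLift_q8 Ψ hΨ hg, ← map_mul, hsq, cplxLift_neg_one Ψ hΨ, one_smul] at h
    have h0 : (cplxLift Ψ g).trace • cplxLift Ψ g = 0 := by
      rw [sub_eq_add_neg, right_eq_add] at h
      exact h
    have h00 := congrArg Matrix.det h0
    rw [Matrix.det_smul, det_cplxLift_q8 Ψ hΨ hg, mul_one, Fintype.card_fin,
      Matrix.det_zero] at h00
    rw [Int.cast_zero]
    exact pow_eq_zero_iff two_ne_zero |>.mp h00

theorem trace_cplxLift_q8' {g : G₂} (hg : g ∈ quaternionSubgroup) :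
    ((Ψ g : GL (Fin 2) R₂) : Matrix (Fin 2) (Fin 2) R₂).trace = (q8Trace g : R₂) :=
  iotaSqrtNegTwo_injective (by rw [← trace_cplxLift, trace_cplxLift_q8 Ψ hΨ hg, map_intCast])

omit hΨ in
theorem q8Trace_cases (g : G₂) : q8Trace g = 2 ∨ q8Trace g = -2 ∨ q8Trace g = 0 := by
  unfold q8Trace
  split_ifs <;> simp

/-- The trace is rational in even, and imaginary in odd determinant. -/
theorem trace_lift_sign (g : G₂) :
    star ((Ψ g : GL (Fin 2) R₂) : Matrix (Fin 2) (Fin 2) R₂).trace =
      (sgnThree (g : Matrix (Fin 2) (Fin 2) (ZMod 3)).det : R₂) *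
        ((Ψ g : GL (Fin 2) R₂) : Matrix (Fin 2) (Fin 2) R₂).trace := by
  set X := ((Ψ g : GL (Fin 2) R₂) : Matrix (Fin 2) (Fin 2) R₂) with hX
  rcases (by decide : ∀ x : ZMod 3, x ≠ 0 → x = 1 ∨ x = -1) _
    ((Matrix.isUnit_iff_isUnit_det _).mp g.isUnit).ne_zero with h | h
  · have hq : g ^ 3 ∈ quaternionSubgroup := LT.pow_three_mem_quaternionSubgroup h
    have e := trace_cube X
    rw [det_lift Ψ hΨ, h, ← Units.val_mul, ← Units.val_mul, ← map_mul, ← map_mul, ← pow_two, ← pow_succ,
      trace_cplxLift_q8' Ψ hΨ hq] at e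
    rw [show sgnThree (1 : ZMod 3) = 1 from rfl, Int.cast_one, mul_one] at e
    rw [h, show sgnThree (1 : ZMod 3) = 1 from rfl, Int.cast_one, one_mul]
    have er := congrArg Zsqrtd.re e
    have ei := congrArg Zsqrtd.im e
    simp at er ei
    have hy : X.trace.im = 0 := by
      by_contra hy
      have h3 : 3 * (X.trace.re * X.trace.re) - 2 * (X.trace.im * X.trace.im) - 3 = 0 :=
        mul_left_cancel₀ hy (by rw [mul_zero]; linarith)
      obtain ⟨hlo, hhi⟩ : -2 ≤ (q8Trace (g ^ 3)) ∧ q8Trace (g ^ 3) ≤ 2 := by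
        rcases q8Trace_cases (g ^ 3) with c | c | c <;> rw [c] <;> norm_num
      have hc : -8 * (X.trace.re * X.trace.re * X.trace.re) + 6 * X.trace.re = q8Trace (g ^ 3) := by
        linear_combination -er - 3 * X.trace.re * h3
      have : X.trace.re ≤ 1 := by nlinarith [mul_self_nonneg X.trace.re]
      have : -1 ≤ X.trace.re := by nlinarith [mul_self_nonneg X.trace.re]
      rcases (by omega : X.trace.re = -1 ∨ X.trace.re = 0 ∨ X.trace.re = 1) with e0 | e0 | e0 <;>
        rw [e0] at h3 <;> exact hy (mul_self_eq_zero.mp (by nlinarith [mul_self_nonneg X.trace.im]))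
    exact Zsqrtd.ext (by simp) (by simp [hy])
  · have hq : g ^ 2 ∈ quaternionSubgroup := by
      have e := sq_eq_smul_sub (g : Matrix (Fin 2) (Fin 2) (ZMod 3))
      have e' := trace_sq (g : Matrix (Fin 2) (Fin 2) (ZMod 3))
      rw [h] at e e'
      show IsQ8 _
      rw [Units.val_pow_eq_pow_val, pow_two]
      refine ⟨by rw [det_mul, h]; norm_num, ?_⟩
      rcases eq_or_ne (g : Matrix (Fin 2) (Fin 2) (ZMod 3)).trace 0 with ht | ht
      · exact Or.inr (Or.inl (by rw [e, ht, zero_smul, neg_one_smul, sub_neg_eq_add, zero_add]))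
      · refine Or.inl ?_
        rw [e']
        exact (by decide : ∀ t : ZMod 3, t ≠ 0 → t * t - 2 * (-1) = 0) _ ht
    have e := trace_sq X
    rw [det_lift Ψ hΨ, h, ← Units.val_mul, ← map_mul, ← pow_two, trace_cplxLift_q8' Ψ hΨ hq,
      show sgnThree (-1 : ZMod 3) = -1 from rfl] at e
    rw [h, show sgnThree (-1 : ZMod 3) = -1 from rfl]
    have er := congrArg Zsqrtd.re e
    have ei := congrArg Zsqrtd.im e
    simp at er ei
    have hx : X.trace.re = 0 := by
      rcases eq_or_ne X.trace.im 0 with hy | hy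
      · rw [hy] at er
        rcases q8Trace_cases (g ^ 2) with c | c | c <;> rw [c] at er <;>
          nlinarith [mul_self_nonneg X.trace.re]
      · exact (mul_eq_zero.mp (by linarith : X.trace.re * X.trace.im = 0)).resolve_right hy
    exact Zsqrtd.ext (by simp [hx]) (by simp)

theorem trace_iotaBar (g : G₂) :
    iotaBar ((Ψ g : GL (Fin 2) R₂) : Matrix (Fin 2) (Fin 2) R₂).trace =
      (sgnThree (g : Matrix (Fin 2) (Fin 2) (ZMod 3)).det : ℂ) * (cplxLift Ψ g).trace := by
  rw [iotaBar, RingHom.comp_apply, starRingEnd_apply, trace_lift_sign Ψ hΨ, map_mul, map_intCast,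
    trace_cplxLift]

theorem span_cplxLift_q8 :
    Submodule.span ℂ (cplxLift Ψ '' (quaternionSubgroup : Set G₂)) = ⊤ := by
  let qi : G₂ := ⟨!![0, -1; 1, 0], !![0, 1; -1, 0], by decide, by decide⟩
  let qj : G₂ := ⟨!![1, 1; 1, -1], !![-1, -1; -1, 1], by decide, by decide⟩
  let v : Fin 4 → G₂ := ![1, qi, qj, qi * qj]
  have hv : ∀ a, v a ∈ quaternionSubgroup := by
    have h1 : qi ∈ quaternionSubgroup := show IsQ8 _ from ⟨by decide, Or.inl (by decide)⟩
    have h2 : qj ∈ quaternionSubgroup := show IsQ8 _ from ⟨by decide, Or.inl (by decide)⟩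
    intro a
    fin_cases a
    · exact one_mem _
    · exact h1
    · exact h2
    · exact mul_mem h1 h2
  have hpair : ∀ a b : Fin 4, q8Trace ((v a)⁻¹ * v b) = if a = b then 2 else 0 := by decide
  have hli : LinearIndependent ℂ fun a => cplxLift Ψ (v a) := by
    refine Fintype.linearIndependent_iff.mpr fun c hc a => ?_
    have := congrArg (fun M => (cplxLift Ψ ((v a)⁻¹) * M).trace) hc
    simp only [Finset.mul_sum, Matrix.trace_sum, mul_smul_comm, Matrix.trace_smul, mul_zero,
      Matrix.trace_zero, ← map_mul] at this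
    rw [Finset.sum_congr rfl fun b _ => by
      rw [trace_cplxLift_q8 Ψ hΨ (mul_mem (inv_mem (hv a)) (hv b)), hpair]] at this
    simpa using this
  refine top_le_iff.mp (le_trans (le_of_eq
    (hli.span_eq_top_of_card_eq_finrank (by simp [Module.finrank_matrix])).symm) ?_)
  refine Submodule.span_mono ?_
  rintro _ ⟨a, rfl⟩
  exact ⟨v a, hv a, rfl⟩

end FermatAgent.LTG.Galois

end
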