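import Fermat.Agent.LT.Galois.Compare
import Fermat.Agent.LT.General.Galois.Eigen
import Fermat.Agent.LT.General.Galois.Psi
import Fermat.Prelude.Def_LanglandsTunnell_WeightOneRealizationCarriers
import Fermat.Prelude.Def_Deformations_MatrixRepresentation

/-!
# From a weight one source to the realised eigensystem

The complex representation of the eigenform agrees with the lift of `ρ` on the preimage of the
quaternion group, hence is that lift up to the quadratic character `χ₋₃`, which amounts to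
changing the embedding of `ℤ[√-2]`.
-/

set_option autoImplicit false

noncomputable section

open Matrix CongruenceSubgroup
open ModularFormClass (qCoeff)
open scoped MatrixGroups
open FermatAgent.LT (quaternionSubgroup q8Trace chiThree quaternionSubgroup_conj)
open FLT.ExplicitLift (red)
open EisensteinWeightOne (chiNegThree)

namespace FermatAgent.LTG

local notation "Qb" => AlgebraicClosure ℚ
local notation "GQ" => AlgebraicClosure ℚ ≃ₐ[ℚ] AlgebraicClosure ℚ
local notation "M₂" => Matrix (Fin 2) (Fin 2)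
local notation "R₂" => Zsqrtd (-2)

/-- The theorem of Deligne and Serre on forms of weight one. -/
def DeligneSerreWeightOne : Prop :=
  ∀ (N : ℕ) [NeZero N] (ε : DirichletCharacter ℂ N) (f : CuspForm (Gamma1 N) 1),
    qCoeff f 1 = 1 →
    (∀ p : ℕ, p.Prime → ¬ p ∣ N → ∀ n : ℕ,
        qCoeff f (p * n) + ε (p : ZMod N) * (if p ∣ n then qCoeff f (n / p) else 0) =
          qCoeff f p * qCoeff f n) →
    ∃ ρ : GQ →* GL (Fin 2) ℂ, GaloisFactorsThroughFiniteLevel ρ ∧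
      (Deformation.matrixRepresentation ρ).IsIrreducible ∧
      ∀ p : ℕ, p.Prime → ¬ p ∣ N →
        ∀ A : ValuationSubring (AlgebraicClosure ℚ), A.LiesOverPrime p →
          (∀ σ ∈ A.inertiaSubgroupIn ℚ, ρ σ = 1) ∧
          ∀ σ : GQ, A.IsFrobeniusAt σ p →
            ((ρ σ : GL (Fin 2) ℂ) : M₂ ℂ).trace = qCoeff f p ∧
            ((ρ σ : GL (Fin 2) ℂ) : M₂ ℂ).det = ε (p : ZMod N)

namespace Galois

/-- `χ₋₃` as a Dirichlet character modulo three. -/
def chiThreeChar : DirichletCharacter ℂ 3 where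
  toFun x := (sgnThree x : ℂ)
  map_one' := by simp [sgnThree, chiThree, ZMod.val_one]
  map_mul' x y := by
    show ((sgnThree (x * y) : ℤ) : ℂ) = (sgnThree x : ℂ) * (sgnThree y : ℂ)
    rw [← Int.cast_mul]
    exact congrArg _ ((by decide : ∀ a b : ZMod 3, sgnThree (a * b) = sgnThree a * sgnThree b) x y)
  map_nonunit' x hx := by
    obtain rfl : x = 0 := by
      by_contra h
      exact hx (Ne.isUnit h)
    simp [sgnThree, chiThree]

theorem chiNegThree_eq (p : ℕ) : chiNegThree p = chiThree p := by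
  unfold chiNegThree LT.chiThree
  split_ifs <;> omega

theorem changeLevel_chiThreeChar {N : ℕ} (h3 : 3 ∣ N) {p : ℕ} (hp : p.Coprime N) :
    DirichletCharacter.changeLevel h3 chiThreeChar (p : ZMod N) = (chiThree p : ℂ) := by
  have h := DirichletCharacter.changeLevel_eq_cast_of_dvd chiThreeChar h3 (ZMod.unitOfCoprime p hp)
  rw [ZMod.coe_unitOfCoprime] at h
  rw [h, ZMod.cast_natCast h3]
  show ((sgnThree (p : ZMod 3) : ℤ) : ℂ) = _
  rw [sgnThree_natCast]

/-- Values generated by the relations lie in the image of a subring. -/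
theorem mem_range_of_relations {R : Type*} [CommRing R] (ι : R →+* ℂ) {N : ℕ} {a : ℕ → ℂ}
    (e : ℕ → ℤ) (h0 : a 0 = 0) (h1 : a 1 = 1)
    (hbad : ∀ p : ℕ, p.Prime → p ∣ N → ∀ n, a (p * n) = 0)
    (hrel : ∀ p : ℕ, p.Prime → ¬ p ∣ N → ∀ n,
      a (p * n) + (e p : ℂ) * (if p ∣ n then a (n / p) else 0) = a p * a n)
    (hp : ∀ p : ℕ, p.Prime → ¬ p ∣ N → a p ∈ ι.range) (n : ℕ) : a n ∈ ι.range := by
  induction n using Nat.strong_induction_on with
  | _ n ih =>
  rcases eq_or_ne n 0 with rfl | hn0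
  · rw [h0]; exact zero_mem _
  rcases eq_or_ne n 1 with rfl | hn1
  · rw [h1]; exact one_mem _
  obtain ⟨p, hpp, k, rfl⟩ : ∃ p, p.Prime ∧ p ∣ n := ⟨n.minFac, Nat.minFac_prime hn1, n.minFac_dvd⟩
  by_cases hpN : p ∣ N
  · rw [hbad p hpp hpN]; exact zero_mem _
  have hk : k < p * k := (lt_mul_iff_one_lt_left (Nat.pos_of_ne_zero fun h => hn0 (by rw [h, mul_zero]))).mpr hpp.one_lt
  rw [eq_sub_of_add_eq (hrel p hpp hpN k)]
  refine sub_mem (mul_mem (hp p hpp hpN) (ih k hk)) (mul_mem (intCast_mem _ _) ?_)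
  split_ifs with h
  · exact ih _ (lt_of_le_of_lt (Nat.div_le_self k p) hk)
  · exact zero_mem _

/-- The lift of `ρ` to complex matrices. -/
def liftRep (S : Setup) (Ψ : GL (Fin 2) (ZMod 3) →* GL (Fin 2) R₂) : GQ →* M₂ ℂ :=
  (cplxLift Ψ).comp S.ρ

/-- A representation with the quaternionic traces is the lift, up to the choice of the embedding. -/
theorem exists_embedding (S : Setup) (Ψ : GL (Fin 2) (ZMod 3) →* GL (Fin 2) R₂)
    (hΨ : ∀ g, Matrix.GeneralLinearGroup.map red (Ψ g) = g)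
    (r : GQ →* GL (Fin 2) ℂ) (hr : GaloisFactorsThroughFiniteLevel r) (T : Finset ℕ)
    (hT : ∀ p : ℕ, p ∣ S.m → p ∈ T)
    (hfrob : ∀ p : ℕ, p.Prime → p ∉ T → ∀ A : ValuationSubring Qb, A.LiesOverPrime p →
      ∀ τ, A.IsFrobeniusAt τ p → ((r τ : GL (Fin 2) ℂ) : M₂ ℂ).det = (chiThree p : ℂ) ∧
        (S.ρ τ ∈ quaternionSubgroup → ((r τ : GL (Fin 2) ℂ) : M₂ ℂ).trace = (q8Trace (S.ρ τ) : ℂ))) :
    ∃ ι : R₂ →+* ℂ, Function.Injective ι ∧ ∀ σ, ((r σ : GL (Fin 2) ℂ) : M₂ ℂ).trace =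
      ι ((Ψ (S.ρ σ) : GL (Fin 2) R₂) : M₂ R₂).trace := by
  classical
  set B : GQ →* M₂ ℂ := (Units.coeHom (M₂ ℂ)).comp r with hB
  set A : GQ →* M₂ ℂ := liftRep S Ψ with hA
  set T' : Set ℕ := ↑T with hT'
  have hTfin : T'.Finite := T.finite_toSet
  obtain ⟨L₁, hL₁, h₁⟩ := hr
  obtain ⟨L₂, hL₂, h₂⟩ := S.finiteLevel
  have hfin : GaloisFactorsThroughFiniteLevel (B.prod S.ρ) :=
    ⟨L₁ ⊔ L₂, IntermediateField.finiteDimensional_sup L₁ L₂, fun σ hσ => Prod.ext
      (by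
        rw [MonoidHom.prod_apply]
        show ((r σ : GL (Fin 2) ℂ) : M₂ ℂ) = 1
        rw [h₁ σ fun x hx => hσ x (le_sup_left (b := L₂) hx), Units.val_one])
      (h₂ σ fun x hx => hσ x (le_sup_right (a := L₁) hx))⟩
  have hm : ∀ p : ℕ, p.Prime → p ∉ T → ¬ p ∣ S.m ∧ p ≠ 3 := fun p _ h =>
    ⟨fun hd => h (hT p hd), fun e => h (hT p (e ▸ S.three_dvd_bad))⟩
  have hdetA : ∀ p : ℕ, p.Prime → p ∉ T → ∀ V : ValuationSubring Qb, V.LiesOverPrime p →
      ∀ τ, V.IsFrobeniusAt τ p → (A τ).det = (chiThree p : ℂ) := by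
    intro p hp hpT V hV τ hτ
    show (cplxLift Ψ (S.ρ τ)).det = _
    rw [det_cplxLift Ψ hΨ, S.det_frobenius hp (hm p hp hpT).2 hV hτ, sgnThree_natCast]
  have hdet_eq : ∀ σ, (B σ).det = (A σ).det := fun σ => by
    have hf : ∀ f : GQ →* M₂ ℂ, (∀ σ, (B.prod S.ρ) σ = 1 → f σ = 1) →
        GaloisFactorsThroughFiniteLevel (Matrix.detMonoidHom.comp f) := fun f hf => by
      obtain ⟨L, hL, hL1⟩ := hfin
      exact ⟨L, hL, fun τ hτ => by rw [MonoidHom.comp_apply, hf τ (hL1 τ hτ), map_one]⟩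
    exact DFunLike.congr_fun (GalRep.monoidHom_ext_of_frobenius (Matrix.detMonoidHom.comp B)
      (Matrix.detMonoidHom.comp A) (hf B fun τ h => congrArg Prod.fst h)
      (hf A fun τ h => by
        show cplxLift Ψ (S.ρ τ) = 1
        rw [show S.ρ τ = 1 from congrArg Prod.snd h, map_one])
      hTfin fun p hp hpT V hV τ hτ =>
        ((hfrob p hp hpT V hV τ hτ).1).trans (hdetA p hp hpT V hV τ hτ).symm) σ
  set H : Subgroup GQ := quaternionSubgroup.comap S.ρ with hH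
  have : H.Normal := ⟨fun h hh x => by
    simp only [hH, Subgroup.mem_comap, map_mul, map_inv] at hh ⊢
    exact quaternionSubgroup_conj hh⟩
  have htr : ∀ σ ∈ H, (A σ).trace = (B σ).trace := by
    intro σ hσ
    obtain ⟨p, hp, hpT, V, hV, τ, hτ, m, j, hm', hk⟩ :=
      GalRep.exists_isFrobeniusAt_map_pow_eq (B.prod S.ρ) hfin σ hTfin
    have hρτ : S.ρ τ ∈ quaternionSubgroup := by
      rw [← show S.ρ (σ ^ j) = S.ρ τ from congrArg Prod.snd hk, map_pow]
      exact pow_mem (show S.ρ σ ∈ quaternionSubgroup from hσ) j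
    have hAm : A σ = A τ ^ m := by
      rw [← map_pow]
      exact congrArg (cplxLift Ψ) (congrArg Prod.snd hm').symm
    have hBm : B σ = B τ ^ m := by
      rw [← map_pow]
      exact (congrArg Prod.fst hm').symm
    obtain ⟨hd, ht⟩ := hfrob p hp hpT V hV τ hτ
    have ht' : (A τ).trace = (B τ).trace :=
      (trace_cplxLift_q8 Ψ hΨ hρτ).trans (ht hρτ).symm
    rw [hAm, hBm, GalRep.trace_pow_eq_powTrace, GalRep.trace_pow_eq_powTrace, ht',
      hdetA p hp hpT V hV τ hτ, show (B τ).det = (chiThree p : ℂ) from hd]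
  have hspan : Submodule.span ℂ (A '' (H : Set GQ)) = ⊤ := by
    rw [← span_cplxLift_q8 Ψ hΨ]
    refine congrArg _ (Set.ext fun x => ⟨?_, ?_⟩)
    · rintro ⟨σ, hσ, rfl⟩
      exact ⟨S.ρ σ, hσ, rfl⟩
    · rintro ⟨q, hq, rfl⟩
      obtain ⟨σ, rfl⟩ := S.surjective q
      exact ⟨σ, hq, rfl⟩
  obtain ⟨P, hPH, hex⟩ := LT.exists_smul_of_trace_eq H A B hspan htr
  choose s hs using hex
  have hPdet : (P : M₂ ℂ).det ≠ 0 :=
    ((Matrix.isUnit_iff_isUnit_det _).mp P.isUnit).ne_zero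
  have hAdet0 : ∀ σ, (A σ).det ≠ 0 := fun σ => det_cplxLift_ne_zero Ψ (S.ρ σ)
  have hsq : ∀ σ, s σ * s σ = 1 := fun σ => by
    have h := congrArg Matrix.det (hs σ)
    rw [det_mul, det_smul, det_mul, hdet_eq, Fintype.card_fin] at h
    refine mul_right_cancel₀ (mul_ne_zero hPdet (hAdet0 σ)) ?_
    linear_combination -h
  have huniq : ∀ σ c, B σ * P = c • ((P : M₂ ℂ) * A σ) → c = s σ := fun σ c hc => by
    have h := congrArg Matrix.det ((show (c - s σ) • ((P : M₂ ℂ) * A σ) = 0 by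
      rw [sub_smul, ← hc, ← hs, sub_self]))
    rw [det_smul, det_mul, Fintype.card_fin, Matrix.det_zero, mul_eq_zero] at h
    exact sub_eq_zero.mp (pow_eq_zero_iff two_ne_zero |>.mp
      (h.resolve_right (mul_ne_zero hPdet (hAdet0 σ))))
  have hmul : ∀ σ τ, s (σ * τ) = s σ * s τ := fun σ τ => by
    refine (huniq (σ * τ) _ ?_).symm
    rw [map_mul, mul_assoc, hs τ, mul_smul_comm, ← mul_assoc, hs σ, smul_mul_assoc, smul_smul,
      mul_assoc, ← map_mul, mul_comm (s τ)]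
  have hone : ∀ σ ∈ H, s σ = 1 := fun σ hσ =>
    (huniq σ 1 (by rw [one_smul, hPH σ hσ])).symm
  have hdet1 : ∀ σ, ((S.ρ σ : GL (Fin 2) (ZMod 3)) : M₂ (ZMod 3)).det = 1 → s σ = 1 := fun σ h => by
    have h3 : s (σ ^ 3) = 1 := hone _ (by
      simpa [hH, map_pow] using LT.pow_three_mem_quaternionSubgroup h)
    rw [pow_three, hmul, hmul, hsq, mul_one] at h3
    exact h3
  have htrace : ∀ σ, (B σ).trace = s σ * (A σ).trace := fun σ => by
    have e : B σ = s σ • ((P : M₂ ℂ) * A σ * ((P⁻¹ : (M₂ ℂ)ˣ) : M₂ ℂ)) := by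
      rw [← smul_mul_assoc, ← hs, mul_assoc, Units.mul_inv, mul_one]
    rw [e, Matrix.trace_smul, Matrix.trace_units_conj, smul_eq_mul]
  by_cases hall : ∀ σ, s σ = 1
  · exact ⟨iotaSqrtNegTwo, iotaSqrtNegTwo_injective, fun σ => by
      show (B σ).trace = _
      rw [htrace, hall, one_mul, ← trace_cplxLift]
      rfl⟩
  push Not at hall
  obtain ⟨σ₀, hσ₀⟩ := hall
  have hcases : ∀ σ, ((S.ρ σ : GL (Fin 2) (ZMod 3)) : M₂ (ZMod 3)).det = 1 ∨
      ((S.ρ σ : GL (Fin 2) (ZMod 3)) : M₂ (ZMod 3)).det = -1 := fun σ =>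
    (by decide : ∀ x : ZMod 3, x ≠ 0 → x = 1 ∨ x = -1) _
      ((Matrix.isUnit_iff_isUnit_det _).mp (S.ρ σ).isUnit).ne_zero
  refine ⟨iotaBar, iotaBar_injective, fun σ => ?_⟩
  show (B σ).trace = _
  rw [htrace, trace_iotaBar Ψ hΨ]
  refine congrArg (· * (A σ).trace) ?_
  rcases hcases σ with h | h
  · rw [hdet1 σ h, h, show sgnThree (1 : ZMod 3) = 1 from rfl, Int.cast_one]
  · have h0 := (hcases σ₀).resolve_left fun h' => hσ₀ (hdet1 σ₀ h')
    have h1 := hdet1 (σ * σ₀) (by rw [map_mul, Units.val_mul, det_mul, h, h0]; norm_num)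
    rw [hmul] at h1
    have hs0 : s σ₀ = -1 := (mul_self_eq_one_iff.mp (hsq σ₀)).resolve_left hσ₀
    rw [h, show sgnThree (-1 : ZMod 3) = -1 from rfl, Int.cast_neg, Int.cast_one]
    rw [hs0] at h1
    linear_combination -h1

end Galois

open Galois

/-- **A weight one source gives the realised eigensystem.** -/
theorem WeightOneSource.exists_realized {S : Setup} (W : WeightOneSource S)
    (hDS : DeligneSerreWeightOne) (Ψ : GL (Fin 2) (ZMod 3) →* GL (Fin 2) R₂)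
    (hΨ : ∀ g, Matrix.GeneralLinearGroup.map red (Ψ g) = g) :
    ∃ (N : ℕ) (_ : NeZero N) (b : ℕ → R₂),
      FormalHecke.IsEigensystem
        (fun ℓ => if ℓ ∣ N then 0 else ((chiNegThree ℓ : ℤ) : R₂)) b ∧
      CuspForm.IsWeightOneChiNegThreeRealized N b ∧
      ∀ p : ℕ, p.Prime → ¬ p ∣ 3 * N →
        ∀ A : ValuationSubring Qb, A.LiesOverPrime p →
          ∀ σ : GQ, A.IsFrobeniusAt σ p →
            b p = ((Ψ (S.ρ σ) : GL (Fin 2) R₂) : M₂ R₂).trace := by
  classical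
  obtain ⟨N, hN, g, hg, h3, hiff, hg1, hbad, hrel, hsplit⟩ := W.exists_eigen
  set ε := DirichletCharacter.changeLevel h3 chiThreeChar
  have hεp : ∀ p : ℕ, p.Prime → ¬ p ∣ N → ε (p : ZMod N) = (chiThree p : ℂ) := fun p hp hpN =>
    changeLevel_chiThreeChar h3 (hp.coprime_iff_not_dvd.mpr hpN)
  obtain ⟨r, hr, -, hfr⟩ := hDS N ε hg.toForm hg1 fun p hp hpN n => by
    rw [hεp p hp hpN]
    exact hrel p hp hpN n
  have hmN : ∀ p : ℕ, p.Prime → p ∣ S.m → p ∣ N := fun p hp h =>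
    (hiff p hp).mpr (h.trans W.m_dvd)
  obtain ⟨ι, hι, htr⟩ := exists_embedding S Ψ hΨ r hr (W.exc ∪ N.divisors ∪ S.m.divisors)
    (fun p h => Finset.mem_union_right _ (Nat.mem_divisors.mpr ⟨h, S.m_ne_zero⟩))
    fun p hp hpT A hA τ hτ => by
      simp only [Finset.mem_union, Nat.mem_divisors, not_or, not_and, not_not] at hpT
      have hpN : ¬ p ∣ N := fun h => hN.out (hpT.1.2 h)
      obtain ⟨ht, hd⟩ := (hfr p hp hpN A hA).2 τ hτ
      refine ⟨hd.trans (hεp p hp hpN), fun hq => ht.trans ?_⟩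
      exact hsplit p hp hpT.1.1 hpN
        (S.splitsInF_of_frobenius hp (fun h => hpN (hmN p hp h)) hA hτ hq) A hA τ hτ
  have hrange : ∀ n, qCoeff g n ∈ ι.range :=
    mem_range_of_relations ι (fun p => chiThree p) hg.qCoeff_zero hg1 hbad hrel fun p hp hpN => by
      obtain ⟨A, τ, hA, hτ⟩ := Setup.exists_frobenius hp
      exact ⟨_, ((((hfr p hp hpN A hA).2 τ hτ).1).symm.trans (htr τ)).symm⟩
  choose b hb using fun n => RingHom.mem_range.mp (hrange n)
  refine ⟨N, hN, b, ⟨hι ((hb 1).trans (hg1.trans (map_one ι).symm)), fun ℓ hℓ n => hι ?_⟩,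
    ⟨ι, hg.toForm, fun n => (hb n).symm⟩, fun p hp hp3N A hA σ hσ => hι ?_⟩
  · simp only
    by_cases hℓN : ℓ ∣ N
    · rw [if_pos hℓN, zero_mul, add_zero, map_mul, hb, hb, hb, hbad ℓ hℓ hℓN]
      have := hbad ℓ hℓ hℓN 1
      rw [mul_one] at this
      rw [this, zero_mul]
    · rw [if_neg hℓN, map_add, map_mul, map_mul, map_intCast, chiNegThree_eq, hb, hb, hb,
        apply_ite ι, map_zero, hb]
      exact hrel ℓ hℓ hℓN n
  · rw [hb, ← htr σ]
    exact ((hfr p hp (fun h => hp3N (h.mul_left 3)) A hA).2 σ hσ).1.symm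

end FermatAgent.LTG

end
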